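/-
P-SS (helper22): **change of chart for the regularity of the level-`M` model** (abstract part).

Setting of `Fermat.Agent.H22.KL`: `A` a DVR with uniformiser `ϖ`, `E` a field of characteristic
zero over `A`; two charts `x, H ∈ E` related by `x · Q(H) = P(H)` (`P, Q ∈ A[X]`, `P` monic,
`deg Q < deg P`), with `H ∈ B(x)` and `Q(H)` a unit of `B(x)`.  Then `B(x) = B(H)[1 / Q(H)]`:

* `cch_exists_pow_mul_intX` : for `z ∈ B(x)` some `Q(H) ^ K z` lies in `B(H)`;
* `cch_isMaximal_comap` : the contraction of a maximal ideal `𝔫 ∋ ϖ` of `B(x)` to `B(H)` is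
  maximal;
* `cch_reg` : if every maximal ideal `𝔫' ∋ ϖ` of `B(H)` off the zeros of `Q(H)` is locally
  generated by `ϖ` and one more element, so is every maximal ideal `𝔫 ∋ ϖ` of `B(x)`.
-/
import Mathlib
import Fermat.Agent.H41.SS.OrdPoint

set_option autoImplicit false
set_option linter.style.haveILetI false
set_option linter.unusedSectionVars false

noncomputable section

open Polynomial

namespace Fermat.Agent.H22.SS

open Fermat.Agent.H22.KL
open Fermat.Agent.H87.KL (evX IntX)
open Fermat.Agent.H41.SS (etale_aeval_mem_chartClosure ordPoint_exists_monic)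

/-! ### Homogenisation -/

section Homog

variable {R : Type*} [CommRing R]

/-- The homogenisation `∑_{i ≤ d} g_i P^i Q^(d - i)` of `g` with respect to `(P, Q)`. -/
def cchHomog (P Q : R[X]) (d : ℕ) (g : R[X]) : R[X] :=
  ∑ i ∈ Finset.range (d + 1), C (g.coeff i) * P ^ i * Q ^ (d - i)

theorem cchHomog_aeval {S : Type*} [CommRing S] [Algebra R S] {x h : S} (P Q : R[X])
    (hrel : x * aeval h Q = aeval h P) (d : ℕ) {g : R[X]} (hd : g.natDegree ≤ d) :
    aeval h (cchHomog P Q d g) = aeval h Q ^ d * aeval x g := by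
  unfold cchHomog
  rw [map_sum, aeval_eq_sum_range' (Nat.lt_succ_of_le hd) x, Finset.mul_sum]
  refine Finset.sum_congr rfl fun i hi => ?_
  have hi' : i ≤ d := Nat.lt_succ_iff.mp (Finset.mem_range.mp hi)
  rw [map_mul, map_mul, map_pow, map_pow, aeval_C, ← hrel, Algebra.smul_def]
  have : aeval h Q ^ d = aeval h Q ^ i * aeval h Q ^ (d - i) := by
    rw [← pow_add, Nat.add_sub_cancel' hi']
  rw [this, mul_pow]
  ring

theorem cchHomog_monic [Nontrivial R] (P Q : R[X]) (hP : P.Monic)
    (hdeg : Q.natDegree < P.natDegree) (d : ℕ) {g : R[X]} (hg : g.coeff d = 1) :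
    (cchHomog P Q d g).Monic := by
  unfold cchHomog
  rw [Finset.sum_range_succ, hg, map_one, one_mul, Nat.sub_self, pow_zero, mul_one]
  rcases Nat.eq_zero_or_pos d with h0 | hpos
  · subst h0
    simp
  · rw [add_comm]
    refine Monic.add_of_left (hP.pow d) (degree_lt_degree ?_)
    rw [hP.natDegree_pow]
    have hPpos : 0 < P.natDegree := lt_of_le_of_lt (Nat.zero_le _) hdeg
    have hle : natDegree (∑ i ∈ Finset.range d, C (g.coeff i) * P ^ i * Q ^ (d - i)) ≤
        d * P.natDegree - 1 := by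
      refine natDegree_sum_le_of_forall_le _ _ fun i hi => ?_
      have hid : i < d := Finset.mem_range.mp hi
      have h1 : natDegree (C (g.coeff i) * P ^ i * Q ^ (d - i)) ≤
          i * P.natDegree + (d - i) * Q.natDegree := by
        refine natDegree_mul_le.trans (add_le_add ?_ ?_)
        · refine (natDegree_C_mul_le _ _).trans ?_
          exact natDegree_pow_le
        · exact natDegree_pow_le
      refine h1.trans ?_
      obtain ⟨e, rfl⟩ : ∃ e, d = i + 1 + e := ⟨d - i - 1, by omega⟩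
      have h2 : i + 1 + e - i = e + 1 := by omega
      rw [h2]
      have h3 : (e + 1) * Q.natDegree + (e + 1) ≤ (e + 1) * P.natDegree := by
        have := Nat.mul_le_mul_left (e + 1) (Nat.succ_le_of_lt hdeg)
        rw [Nat.succ_eq_add_one, Nat.mul_add, Nat.mul_one] at this
        exact this
      have h4 : (i + 1 + e) * P.natDegree = i * P.natDegree + (e + 1) * P.natDegree := by ring
      rw [h4]
      omega
    have hpos' : 0 < d * P.natDegree := Nat.mul_pos hpos hPpos
    omega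

end Homog

/-! ### Integrality after inverting `Q(H)` -/

section Integral

variable {A : Type} [CommRing A] {E : Type} [Field E] [Algebra A E]

/-- If `x = P(h) / Q(h)` and `z` is integral over `A[x]`, then `Q(h) ^ K * z` is integral over
`A[h]` for some `K`. -/
theorem cch_exists_pow_mul_intX {x h : E} (P Q : A[X]) (hQ0 : aeval h Q ≠ 0)
    (hrel : x * aeval h Q = aeval h P) {z : E} (hz : IntX (A := A) x z) :
    ∃ K : ℕ, IntX (A := A) h (aeval h Q ^ K * z) := by
  letI : Algebra A[X] E := (evX (A := A) h).toAlgebra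
  have halg : ∀ F : A[X], algebraMap A[X] E F = aeval h F := fun _ => rfl
  have hu : IsUnit ((evX (A := A) h) Q) := by
    rw [Fermat.Agent.H87.KL.evX_apply]
    exact hQ0.isUnit
  letI : Algebra (Localization.Away Q) E :=
    (IsLocalization.Away.lift (S := Localization.Away Q) Q hu).toAlgebra
  have hlift : ∀ F : A[X],
      algebraMap (Localization.Away Q) E (algebraMap A[X] _ F) = aeval h F := fun F =>
    IsLocalization.Away.lift_eq (S := Localization.Away Q) Q hu F
  haveI : IsScalarTower A[X] (Localization.Away Q) E :=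
    IsScalarTower.of_algebraMap_eq fun F => (hlift F).symm
  set ι : Localization.Away Q := IsLocalization.Away.invSelf Q with hι
  have hιQ : algebraMap (Localization.Away Q) E ι * aeval h Q = 1 := by
    have h1 := IsLocalization.Away.mul_invSelf (S := Localization.Away Q) Q
    have h2 := congrArg (algebraMap (Localization.Away Q) E) h1
    rw [map_mul, hlift, map_one] at h2
    rw [mul_comm]
    exact h2
  set ξ : Localization.Away Q := algebraMap A[X] _ P * ι with hξ
  have hξx : algebraMap (Localization.Away Q) E ξ = x := by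
    rw [hξ, map_mul, hlift, ← hrel, mul_assoc, mul_comm (aeval h Q), hιQ, mul_one]
  set φ : A[X] →+* Localization.Away Q :=
    eval₂RingHom ((algebraMap A[X] (Localization.Away Q)).comp C) ξ with hφ
  have hcomp : (algebraMap (Localization.Away Q) E).comp φ = evX (A := A) x := by
    refine Polynomial.ringHom_ext (fun a => ?_) ?_
    · rw [RingHom.comp_apply, hφ, coe_eval₂RingHom, eval₂_C, RingHom.comp_apply, hlift,
        Fermat.Agent.H87.KL.evX_apply, aeval_C, aeval_C]
    · rw [RingHom.comp_apply, hφ, coe_eval₂RingHom, eval₂_X, hξx,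
        Fermat.Agent.H87.KL.evX_apply, aeval_X]
  have hz' : IsIntegral (Localization.Away Q) z := by
    obtain ⟨p, hp, hpz⟩ := hz
    refine ⟨p.map φ, hp.map φ, ?_⟩
    rw [eval₂_map, hcomp]
    exact hpz
  obtain ⟨⟨_, K, rfl⟩, hK⟩ :=
    hz'.exists_multiple_integral_of_isLocalization (Submonoid.powers Q) z
  refine ⟨K, ?_⟩
  have h3 : (⟨Q ^ K, ⟨K, rfl⟩⟩ : Submonoid.powers Q) • z = aeval h Q ^ K * z := by
    rw [Submonoid.smul_def, Algebra.smul_def, halg, map_pow]
  rw [h3] at hK
  exact hK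

end Integral

/-! ### Maximal ideals of `A[X]` over the closed point -/

section PolyMax

variable {A : Type} [CommRing A] [IsDomain A] [IsDiscreteValuationRing A]

/-- A prime ideal of `A[X]` which contains `ϖ` and a monic polynomial is maximal. -/
theorem cch_isMaximal_of_monic_mem {ϖ : A} (hϖ : Irreducible ϖ) (I : Ideal A[X])
    (hI : I.IsPrime) (hϖI : C ϖ ∈ I) (G : A[X]) (hG : G.Monic) (hGI : G ∈ I) :
    I.IsMaximal := by
  set f : A[X] →+* (IsLocalRing.ResidueField A)[X] := mapRingHom (IsLocalRing.residue A)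
    with hf
  have hfs : Function.Surjective f :=
    Polynomial.map_surjective _ IsLocalRing.residue_surjective
  have hker : RingHom.ker f ≤ I := by
    rw [hf, Polynomial.ker_mapRingHom, IsLocalRing.ker_residue, hϖ.maximalIdeal_eq,
      Ideal.map_span, Set.image_singleton, Ideal.span_le, Set.singleton_subset_iff]
    exact hϖI
  haveI hprime : (I.map f).IsPrime := Ideal.map_isPrime_of_surjective hfs hker
  have hne : I.map f ≠ ⊥ := by
    intro h
    have h1 : f G ∈ I.map f := Ideal.mem_map_of_mem f hGI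
    rw [h, Ideal.mem_bot] at h1
    have h2 : (G.map (IsLocalRing.residue A)).Monic := hG.map _
    exact h2.ne_zero h1
  haveI hmax : (I.map f).IsMaximal := hprime.isMaximal hne
  have hcomap : (I.map f).comap f = I := by
    rw [Ideal.comap_map_of_surjective f hfs]
    refine le_antisymm (sup_le le_rfl ?_) le_sup_left
    exact hker
  rw [← hcomap]
  exact Ideal.comap_isMaximal_of_surjective f hfs

end PolyMax

/-! ### The change of chart -/

section Chart

variable (A : Type) [CommRing A] [IsDomain A] [IsDiscreteValuationRing A]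
variable (E : Type) [Field E] [Algebra A E] [CharZero E]

/-- `B(H) ⊆ B(x)` if `H ∈ B(x)`. -/
theorem cch_le (x H : E) (hH : H ∈ chartClosure A E x) :
    chartClosure A E H ≤ chartClosure A E x := by
  intro z hz
  rw [Fermat.Agent.H87.KL.mem_chartClosure_iff] at hz hH ⊢
  letI : Algebra A[X] E := (evX (A := A) x).toAlgebra
  have hH' : IsIntegral A[X] H := hH
  obtain ⟨p, hp, hpz⟩ := hz
  set ψ : A[X] →+* ↥(integralClosure A[X] E) :=
    eval₂RingHom ((algebraMap A[X] ↥(integralClosure A[X] E)).comp C) ⟨H, hH'⟩ with hψ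
  have hcomp : (algebraMap ↥(integralClosure A[X] E) E).comp ψ = evX (A := A) H := by
    refine Polynomial.ringHom_ext (fun a => ?_) ?_
    · rw [RingHom.comp_apply, hψ, coe_eval₂RingHom, eval₂_C, RingHom.comp_apply]
      show aeval x (C a) = aeval H (C a)
      rw [aeval_C, aeval_C]
    · rw [RingHom.comp_apply, hψ, coe_eval₂RingHom, eval₂_X]
      show H = aeval H X
      rw [aeval_X]
  have h1 : IsIntegral A[X] z :=
    isIntegral_trans (A := ↥(integralClosure A[X] E)) z
      ⟨p.map ψ, hp.map ψ, by rw [eval₂_map, hcomp]; exact hpz⟩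
  exact h1

/-- The inclusion `B(H) → B(x)`. -/
def cchIncl (x H : E) (hH : H ∈ chartClosure A E x) :
    ↥(chartClosure A E H) →+* ↥(chartClosure A E x) :=
  (Subalgebra.inclusion (cch_le A E x H hH)).toRingHom

@[simp] theorem cchIncl_coe (x H : E) (hH : H ∈ chartClosure A E x)
    (b : ↥(chartClosure A E H)) : ((cchIncl A E x H hH b : ↥(chartClosure A E x)) : E) = b :=
  Subalgebra.coe_inclusion (cch_le A E x H hH) b

theorem cchIncl_algebraMap (x H : E) (hH : H ∈ chartClosure A E x) (a : A) :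
    cchIncl A E x H hH (algebraMap A ↥(chartClosure A E H) a) =
      algebraMap A ↥(chartClosure A E x) a :=
  Subtype.ext rfl

/-- The polynomial ring maps to `B(H)`. -/
def cchEv (H : E) : A[X] →+* ↥(chartClosure A E H) :=
  (evX (A := A) H).codRestrict (chartClosure A E H).toSubring
    (fun F => etale_aeval_mem_chartClosure A E H F)

@[simp] theorem cchEv_coe (H : E) (F : A[X]) :
    ((cchEv A E H F : ↥(chartClosure A E H)) : E) = aeval H F := rfl

theorem cchEv_isIntegral (H : E) : (cchEv A E H).IsIntegral := by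
  intro b
  obtain ⟨p, hp, hpb⟩ := (Fermat.Agent.H87.KL.mem_chartClosure_iff H b.1).1 b.2
  refine ⟨p, hp, ?_⟩
  apply Subtype.ext
  have h := Polynomial.hom_eval₂ p (cchEv A E H)
    ((chartClosure A E H).val : ↥(chartClosure A E H) →+* E) b
  have hcomp : ((chartClosure A E H).val : ↥(chartClosure A E H) →+* E).comp (cchEv A E H) =
      evX (A := A) H := rfl
  rw [hcomp] at h
  show ((chartClosure A E H).val : ↥(chartClosure A E H) →+* E) (eval₂ (cchEv A E H) b p) = 0
  rw [h]
  exact hpb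

/-- The contraction to `B(H)` of a maximal ideal `𝔫 ∋ ϖ` of `B(x)` is maximal. -/
theorem cch_isMaximal_comap (ϖ : A) (hϖ : Irreducible ϖ) (x H : E) (P Q : A[X]) (hP : P.Monic)
    (hdeg : Q.natDegree < P.natDegree) (hrel : x * aeval H Q = aeval H P)
    (hH : H ∈ chartClosure A E x)
    (𝔫 : Ideal ↥(chartClosure A E x)) (h𝔫 : 𝔫.IsMaximal)
    (hϖ𝔫 : algebraMap A ↥(chartClosure A E x) ϖ ∈ 𝔫) :
    (𝔫.comap (cchIncl A E x H hH)).IsMaximal := by
  haveI := h𝔫.isPrime
  haveI hprime : (𝔫.comap (cchIncl A E x H hH)).IsPrime := Ideal.comap_isPrime _ _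
  refine Ideal.isMaximal_of_isIntegral_of_isMaximal_comap' (cchEv A E H) (cchEv_isIntegral A E H)
    _ ?_
  have hprime2 : ((𝔫.comap (cchIncl A E x H hH)).comap (cchEv A E H)).IsPrime :=
    Ideal.comap_isPrime _ _
  obtain ⟨g, hgm, -, hg𝔫⟩ := ordPoint_exists_monic A E ϖ hϖ x 𝔫 h𝔫 hϖ𝔫
  refine cch_isMaximal_of_monic_mem hϖ _ hprime2 ?_ (cchHomog P Q g.natDegree g)
    (cchHomog_monic P Q hP hdeg _ hgm.coeff_natDegree) ?_
  · rw [Ideal.mem_comap, Ideal.mem_comap]
    have : cchIncl A E x H hH (cchEv A E H (C ϖ)) = algebraMap A ↥(chartClosure A E x) ϖ := by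
      apply Subtype.ext
      show aeval H (C ϖ) = algebraMap A E ϖ
      exact aeval_C H ϖ
    rw [this]
    exact hϖ𝔫
  · rw [Ideal.mem_comap, Ideal.mem_comap]
    have : cchIncl A E x H hH (cchEv A E H (cchHomog P Q g.natDegree g)) =
        cchIncl A E x H hH (cchEv A E H Q) ^ g.natDegree *
          (⟨aeval x g, etale_aeval_mem_chartClosure A E x g⟩ : ↥(chartClosure A E x)) := by
      apply Subtype.ext
      show aeval H (cchHomog P Q g.natDegree g) = aeval H Q ^ g.natDegree * aeval x g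
      exact cchHomog_aeval P Q hrel _ le_rfl
    rw [this]
    exact Ideal.mul_mem_left _ _ hg𝔫

/-- **Change of chart for the regularity.**  If `x Q(H) = P(H)`, `H ∈ B(x)`, `Q(H)` is a unit
of `B(x)` and every maximal ideal `𝔫' ∋ ϖ` of `B(H)` with `Q(H) ∉ 𝔫'` is locally generated by
`ϖ` and one more element, then so is every maximal ideal `𝔫 ∋ ϖ` of `B(x)`. -/
theorem cch_reg (ϖ : A) (hϖ : Irreducible ϖ) (x H : E) (P Q : A[X]) (hP : P.Monic)
    (hdeg : Q.natDegree < P.natDegree) (hrel : x * aeval H Q = aeval H P)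
    (hH : H ∈ chartClosure A E x)
    (v : E) (hv : v ∈ chartClosure A E x) (hvQ : v * aeval H Q = 1)
    (hreg : ∀ 𝔫' : Ideal ↥(chartClosure A E H), 𝔫'.IsMaximal →
      algebraMap A ↥(chartClosure A E H) ϖ ∈ 𝔫' →
      cchEv A E H Q ∉ 𝔫' →
      ∃ U' : ↥(chartClosure A E H), U' ∈ 𝔫' ∧ ∀ z ∈ 𝔫', ∃ s, s ∉ 𝔫' ∧
        ∃ b₁ b₂ : ↥(chartClosure A E H),
          s * z = algebraMap A ↥(chartClosure A E H) ϖ * b₁ + U' * b₂)
    (𝔫 : Ideal ↥(chartClosure A E x)) (h𝔫 : 𝔫.IsMaximal)
    (hϖ𝔫 : algebraMap A ↥(chartClosure A E x) ϖ ∈ 𝔫) :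
    ∃ U : ↥(chartClosure A E x), U ∈ 𝔫 ∧ ∀ z ∈ 𝔫, ∃ s, s ∉ 𝔫 ∧
      ∃ b₁ b₂ : ↥(chartClosure A E x),
        s * z = algebraMap A ↥(chartClosure A E x) ϖ * b₁ + U * b₂ := by
  haveI hp𝔫 := h𝔫.isPrime
  set ι := cchIncl A E x H hH with hι
  set 𝔫' : Ideal ↥(chartClosure A E H) := 𝔫.comap ι with h𝔫'
  have h𝔫'max : 𝔫'.IsMaximal :=
    cch_isMaximal_comap A E ϖ hϖ x H P Q hP hdeg hrel hH 𝔫 h𝔫 hϖ𝔫
  have hϖ𝔫' : algebraMap A ↥(chartClosure A E H) ϖ ∈ 𝔫' := by
    rw [h𝔫', Ideal.mem_comap, hι, cchIncl_algebraMap]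
    exact hϖ𝔫
  -- `Q(H)` is a unit of `B(x)`
  have hQunit : (⟨v, hv⟩ : ↥(chartClosure A E x)) * ι (cchEv A E H Q) = 1 :=
    Subtype.ext hvQ
  have hQ𝔫 : ι (cchEv A E H Q) ∉ 𝔫 := by
    intro hmem
    apply h𝔫.ne_top
    rw [Ideal.eq_top_iff_one, ← hQunit]
    exact Ideal.mul_mem_left _ _ hmem
  have hQ𝔫' : cchEv A E H Q ∉ 𝔫' := fun h => hQ𝔫 (Ideal.mem_comap.1 h)
  have hQ0 : aeval H Q ≠ 0 := by
    intro h0
    rw [h0, mul_zero] at hvQ
    exact zero_ne_one hvQ
  obtain ⟨U', hU', hgen⟩ := hreg 𝔫' h𝔫'max hϖ𝔫' hQ𝔫'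
  refine ⟨ι U', Ideal.mem_comap.1 hU', ?_⟩
  intro z hz
  obtain ⟨K, hK⟩ := cch_exists_pow_mul_intX P Q hQ0 hrel
    ((Fermat.Agent.H87.KL.mem_chartClosure_iff x z.1).1 z.2)
  have hK' : aeval H Q ^ K * (z : E) ∈ chartClosure A E H :=
    (Fermat.Agent.H87.KL.mem_chartClosure_iff H _).2 hK
  set z' : ↥(chartClosure A E H) := ⟨aeval H Q ^ K * (z : E), hK'⟩ with hz'
  have hιz' : ι z' = ι (cchEv A E H Q) ^ K * z := Subtype.ext rfl
  have hz'mem : z' ∈ 𝔫' := by
    rw [h𝔫', Ideal.mem_comap, hιz']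
    exact Ideal.mul_mem_left _ _ hz
  obtain ⟨s', hs', b₁, b₂, hsz⟩ := hgen z' hz'mem
  refine ⟨ι s' * ι (cchEv A E H Q) ^ K, ?_, ι b₁, ι b₂, ?_⟩
  · intro hmem
    rcases hp𝔫.mem_or_mem hmem with h1 | h2
    · exact hs' (Ideal.mem_comap.2 h1)
    · exact hQ𝔫 (hp𝔫.mem_of_pow_mem K h2)
  · have h1 := congrArg ι hsz
    rw [map_mul, map_add, map_mul, map_mul, hιz', hι, cchIncl_algebraMap] at h1
    rw [← h1]
    ring

end Chart

end Fermat.Agent.H22.SS

end
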