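/-
P-SS (helper22): **REG' at level `M`, `4 ∣ M`, `q` odd** (model input of rows 648 / 650).

`modelLevelReg_h4 : ∃ R, 0 < R ∧ Fermat.Agent.H41.SS.ModelLevelRegStatement M q jq R`
(`R = 1`): every maximal ideal `𝔫 ∋ ϖ` of `B'(j) = chartClosure A₀ (ModelField K₁ M) j` is
locally generated by `ϖ` and one more element.

Route: the chart `j` is wild over `j = 0 = 1728` for `q = 3`, so we pass to the chart
`H` = Hauptmodul of level 4 (`j H⁴ (H + 16) = (H² + 256 H + 4096)³`): `H` and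
`1 / (H (H + 16))` are integral over `A₀[j]` (`2` is a unit), so `B'(j) = B'(H)[1 / (H⁴ (H + 16))]`
(`Fermat.Agent.H22.SS.cch_reg`); in the chart `H` the model is étale over `A₀[H]` off the cusps
`H = 0, -16` (good basis: `H98.SS.modelGoodBasis_h4`, unramified: `H33.SS.modelUnramified_h4`),
hence regular with parameters `(ϖ, g(H))` (`H41.SS.etale_point_chart`).
-/
import Mathlib
import Fermat.Agent.H22.SS.ChartChange
import Fermat.Agent.H41.SS.OrdInterfaces
import Fermat.Agent.H41.SS.EtaleChart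
import Fermat.Agent.H98.SS.GoodBasisH4
import Fermat.Agent.H33.SS.ModelUnramifiedH4
import Fermat.Agent.H48.SS.HauptGeneric
import Fermat.Agent.H8.SS.Haupt4Field
import Fermat.Agent.H2.KLBRModel

set_option autoImplicit false
set_option linter.style.haveILetI false
set_option linter.unusedSectionVars false
set_option maxHeartbeats 1000000

noncomputable section

open Polynomial

namespace Fermat.Agent.H22.SS

open ModularCurve AlgebraicCurve
open Fermat.Agent.H22.KL Fermat.Agent.H8.SS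
open Fermat.Agent.H41.SS (etale_aeval_mem_chartClosure ordPoint_exists_monic etale_point_chart)

section Polys

variable (A : Type) [CommRing A]

/-- numerator of `j` in the chart `H` of level 4 -/
def h4Num : A[X] := (X ^ 2 + C 256 * X + C 4096) ^ 3

/-- denominator of `j` in the chart `H` of level 4 -/
def h4Den : A[X] := X ^ 4 * (X + C 16)

theorem h4Num_monic : (h4Num A).Monic := by
  unfold h4Num
  monicity!

theorem h4Num_natDegree [Nontrivial A] : (h4Num A).natDegree = 6 := by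
  unfold h4Num
  compute_degree!

theorem h4Den_natDegree [Nontrivial A] : (h4Den A).natDegree = 5 := by
  unfold h4Den
  compute_degree!

theorem h4Num_aeval {E : Type} [CommRing E] [Algebra A E] (h : E) :
    aeval h (h4Num A) = (h ^ 2 + 256 * h + 4096) ^ 3 := by
  unfold h4Num
  simp only [map_pow, map_add, map_mul, aeval_X, aeval_C, map_ofNat]

theorem h4Den_aeval {E : Type} [CommRing E] [Algebra A E] (h : E) :
    aeval h (h4Den A) = h ^ 4 * (h + 16) := by
  unfold h4Den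
  simp only [map_pow, map_add, map_mul, aeval_X, aeval_C, map_ofNat]

end Polys

/-- **REG' at level `M`** (`4 ∣ M`, `q` an odd prime, `q ∤ M`), chart `j`, `R = 1`. -/
theorem modelLevelReg_h4 (M q : ℕ) [NeZero M] [NeZero q] (hq : q.Prime) (hq2 : q ≠ 2)
    (hqM : ¬ q ∣ M) (h4 : 4 ∣ M) :
    ∃ R, 0 < R ∧ Fermat.Agent.H41.SS.ModelLevelRegStatement M q ModularCurve.jq R := by
  refine ⟨1, Nat.one_pos, ?_⟩
  intro K₁ _ _ _ A₀ _ _ _ _ _ _ _ hqA _ ϖ hϖ x hx 𝔫 h𝔫 hϖ𝔫
  haveI : CharZero K₁ := algebraRat.charZero K₁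
  haveI : CharZero (ModelField K₁ M) :=
    charZero_of_injective_algebraMap (algebraMap K₁ (ModelField K₁ M)).injective
  have hinj : Function.Injective (algebraMap A₀ (ModelField K₁ M)) := by
    rw [IsScalarTower.algebraMap_eq A₀ K₁ (ModelField K₁ M)]
    exact (algebraMap K₁ (ModelField K₁ M)).injective.comp (IsFractionRing.injective A₀ K₁)
  -- the Hauptmodul
  set H : ModelField K₁ M := ⟨h4S K₁, h4S_mem_laurentBaseChange K₁ M h4⟩ with hH
  have hHemb : (H : LaurentSeries K₁) = coeffEmb K₁ (h4S ℚ) :=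
    (Fermat.Agent.H98.SS.coeffEmb_h4S K₁).symm
  have hrelM : x * H ^ 4 * (H + 16) = (H ^ 2 + 256 * H + 4096) ^ 3 := by
    apply (IntermediateField.val (laurentBaseChange K₁ (modularFunctionFieldFull M))).injective
    simp only [map_mul, map_pow, map_add, map_ofNat]
    show (x : LaurentSeries K₁) * h4S K₁ ^ 4 * (h4S K₁ + 16) =
      (h4S K₁ ^ 2 + 256 * h4S K₁ + 4096) ^ 3
    rw [hx, Fermat.Agent.H27.KLGB.coeffEmb_jq]
    exact h4S_j (k := K₁)
  have hH0 : H ≠ 0 := fun h => h4S_ne_zero (k := K₁) (congrArg Subtype.val h)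
  have hH16 : H + 16 ≠ 0 := by
    intro h
    apply h4S_add_sixteen_ne_zero K₁
    have := congrArg
      (IntermediateField.val (laurentBaseChange K₁ (modularFunctionFieldFull M))) h
    simp only [map_add, map_ofNat, map_zero] at this
    exact this
  -- membership in `B(x)` is integrality over `A₀[x]`
  have hmem : ∀ z : ModelField K₁ M, z ∈ chartClosure A₀ (ModelField K₁ M) x ↔
      IsIntegral ↥(chartRing A₀ (ModelField K₁ M) x) z := fun z => Iff.rfl
  have hxint : IsIntegral ↥(chartRing A₀ (ModelField K₁ M) x) x := by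
    have : x = algebraMap ↥(chartRing A₀ (ModelField K₁ M) x) (ModelField K₁ M)
        ⟨x, Algebra.self_mem_adjoin_singleton A₀ x⟩ := rfl
    rw [this]
    exact isIntegral_algebraMap
  -- `2` is a unit of `A₀`
  have h2 : IsUnit (((2 ^ 20 : ℕ) : ℕ) : A₀) := by
    apply Fermat.Agent.H2.klbr_isUnit_natCast_of_coprime hqA
    apply Nat.Coprime.pow_left
    rw [Nat.coprime_primes Nat.prime_two hq]
    exact fun h => hq2 h.symm
  obtain ⟨c₀, hc₀⟩ := h2.exists_left_inv
  have hc : algebraMap A₀ ↥(chartRing A₀ (ModelField K₁ M) x) c₀ * 2 ^ 20 = 1 := by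
    have := congrArg (algebraMap A₀ ↥(chartRing A₀ (ModelField K₁ M) x)) hc₀
    rw [map_mul, map_one] at this
    rw [← this]
    congr 1
    rw [map_natCast]
    push_cast
    norm_num
  obtain ⟨hHint, u, huint, hu⟩ :=
    Fermat.Agent.H48.SSHaupt.isIntegral_haupt_unit _ hc x H hxint hH0 hH16 hrelM
  have hHB : H ∈ chartClosure A₀ (ModelField K₁ M) x := (hmem H).2 hHint
  have huB : u ∈ chartClosure A₀ (ModelField K₁ M) x := (hmem u).2 huint
  -- the inverse of `Q(H) = H⁴ (H + 16)`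
  have h16B : (16 : ModelField K₁ M) ∈ chartClosure A₀ (ModelField K₁ M) x := by
    have : (16 : ModelField K₁ M) = algebraMap A₀ (ModelField K₁ M) 16 := (map_ofNat _ 16).symm
    rw [this]
    exact (chartClosure A₀ (ModelField K₁ M) x).algebraMap_mem 16
  have hvB : u ^ 4 * (H + 16) ^ 3 ∈ chartClosure A₀ (ModelField K₁ M) x :=
    (chartClosure A₀ (ModelField K₁ M) x).mul_mem
      ((chartClosure A₀ (ModelField K₁ M) x).pow_mem huB 4)
      ((chartClosure A₀ (ModelField K₁ M) x).pow_mem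
        ((chartClosure A₀ (ModelField K₁ M) x).add_mem hHB h16B) 3)
  have hvQ : u ^ 4 * (H + 16) ^ 3 * aeval H (h4Den A₀) = 1 := by
    rw [h4Den_aeval]
    have : u ^ 4 * (H + 16) ^ 3 * (H ^ 4 * (H + 16)) = (u * (H * (H + 16))) ^ 4 := by ring
    rw [this, hu, one_pow]
  have hrel : x * aeval H (h4Den A₀) = aeval H (h4Num A₀) := by
    rw [h4Den_aeval, h4Num_aeval, ← hrelM]
    ring
  have hdeg : (h4Den A₀).natDegree < (h4Num A₀).natDegree := by
    rw [h4Den_natDegree, h4Num_natDegree]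
    norm_num
  refine cch_reg A₀ (ModelField K₁ M) ϖ hϖ x H (h4Num A₀) (h4Den A₀) (h4Num_monic A₀) hdeg hrel
    hHB _ hvB hvQ ?_ 𝔫 h𝔫 hϖ𝔫
  -- regularity in the chart `H` off the cusps
  intro 𝔫' h𝔫' hϖ𝔫' hQ𝔫'
  haveI hp𝔫' := h𝔫'.isPrime
  obtain ⟨g, hgm, hgirr, hg𝔫'⟩ :=
    ordPoint_exists_monic A₀ (ModelField K₁ M) ϖ hϖ H 𝔫' h𝔫' hϖ𝔫'
  have hCϖ : cchEv A₀ (ModelField K₁ M) H (C ϖ) =
      algebraMap A₀ ↥(chartClosure A₀ (ModelField K₁ M) H) ϖ :=
    Subtype.ext (aeval_C H ϖ)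
  have hgen : ∀ F : A₀[X], (∃ p r : A₀[X], F = C ϖ * p + g * r) →
      cchEv A₀ (ModelField K₁ M) H F ∈ 𝔫' := by
    rintro F ⟨p, r, rfl⟩
    rw [map_add, map_mul, map_mul, hCϖ]
    exact Ideal.add_mem _ (Ideal.mul_mem_right _ _ hϖ𝔫') (Ideal.mul_mem_right _ _ hg𝔫')
  have hQsplit : cchEv A₀ (ModelField K₁ M) H (h4Den A₀) =
      cchEv A₀ (ModelField K₁ M) H X ^ 4 * cchEv A₀ (ModelField K₁ M) H (X + C 16) := by
    rw [h4Den, map_mul, map_pow]
  have hX : ¬ ∃ p r : A₀[X], (X : A₀[X]) = C ϖ * p + g * r := by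
    intro h
    apply hQ𝔫'
    rw [hQsplit]
    exact Ideal.mul_mem_right _ _ (Ideal.pow_mem_of_mem _ (hgen _ h) 4 (by norm_num))
  have hX16 : ¬ ∃ p r : A₀[X], (X + C 16 : A₀[X]) = C ϖ * p + g * r := by
    intro h
    apply hQ𝔫'
    rw [hQsplit]
    exact Ideal.mul_mem_left _ _ (hgen _ h)
  have hUN : UnramifiedNear A₀ (ModelField K₁ M) ϖ H g :=
    Fermat.Agent.H33.SS.modelUnramified_h4 M h4 K₁ A₀ ϖ hϖ H hHemb g hgm hgirr hX hX16
  have hGB : GoodBasis A₀ (ModelField K₁ M) ϖ H :=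
    Fermat.Agent.H98.SS.modelGoodBasis_h4 M q hq hqM hq2 K₁ A₀ hqA ϖ hϖ H hHemb
  have hHtr : Transcendental A₀ H :=
    Fermat.Agent.H98.SS.modelTranscendental_h4 M K₁ A₀ H hHemb
  refine ⟨⟨aeval H g, etale_aeval_mem_chartClosure A₀ (ModelField K₁ M) H g⟩, hg𝔫', ?_⟩
  intro z hz
  obtain ⟨s, hs, b₁, hb₁, b₂, hb₂, hsz⟩ :=
    etale_point_chart A₀ (ModelField K₁ M) hinj ϖ hϖ H hHtr hGB g hgm hgirr hUN 𝔫' h𝔫' z hz
  exact ⟨s, hs, ⟨b₁, hb₁⟩, ⟨b₂, hb₂⟩, Subtype.ext hsz⟩

end Fermat.Agent.H22.SS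

end
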